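import Mathlib

/-!
# S16 (LOWER, Hecke side), part 1: abstract Hecke operators on `Hom(Γ, A)`

Let `Γ ≤ SL(2, ℤ)` and let `α : ι → M₂(ℤ)` be a finite system of integer matrices of nonzero
determinant such that for every `γ ∈ Γ` and every `i` there are a unique index `i'` and a unique
`γ' ∈ Γ` with `α i * γ = γ' * α i'` (a system of representatives of `Γ \ Γ α Γ`).  Then
`(T ψ)(γ) = ∑ i, ψ (γ_i)` defines an additive endomorphism of `Hom(Γ, A)` for every abelian group
`A`, natural in `A`.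
-/

set_option autoImplicit false

open scoped MatrixGroups

namespace Fermat.Agent.S16.H75

/-- The integer matrix of an element of a subgroup of `SL(2, ℤ)`. -/
abbrev mat {Γ : Subgroup SL(2, ℤ)} (γ : Γ) : Matrix (Fin 2) (Fin 2) ℤ :=
  ((γ : SL(2, ℤ)) : Matrix (Fin 2) (Fin 2) ℤ)

theorem mat_mul {Γ : Subgroup SL(2, ℤ)} (γ δ : Γ) : mat (γ * δ) = mat γ * mat δ := by
  simp [mat]

theorem mat_one {Γ : Subgroup SL(2, ℤ)} : mat (1 : Γ) = 1 := by
  simp [mat]

theorem mat_inv_mul {Γ : Subgroup SL(2, ℤ)} (γ : Γ) : mat γ⁻¹ * mat γ = 1 := by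
  rw [← mat_mul, inv_mul_cancel, mat_one]

theorem mat_injective {Γ : Subgroup SL(2, ℤ)} {γ δ : Γ} (h : mat γ = mat δ) : γ = δ :=
  Subtype.ext (Subtype.ext h)

/-- Right cancellation of an integer matrix of nonzero determinant. -/
theorem mul_right_cancel_of_det_ne_zero {A B M : Matrix (Fin 2) (Fin 2) ℤ} (hM : M.det ≠ 0)
    (h : A * M = B * M) : A = B := by
  have h1 : A * M * M.adjugate = B * M * M.adjugate := by rw [h]
  rw [Matrix.mul_assoc, Matrix.mul_assoc, Matrix.mul_adjugate] at h1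
  ext i j
  have h2 := congrFun (congrFun h1 i) j
  simp only [Matrix.mul_smul, Matrix.mul_one, Matrix.smul_apply, smul_eq_mul] at h2
  exact mul_left_cancel₀ hM h2

/-- A Hecke system for `Γ`: representatives `α i` of the right cosets in a double coset. -/
structure IsHeckeSys (Γ : Subgroup SL(2, ℤ)) {ι : Type*} (α : ι → Matrix (Fin 2) (Fin 2) ℤ) :
    Prop where
  det_ne : ∀ i, (α i).det ≠ 0
  ex : ∀ (γ : Γ) (i : ι), ∃ (i' : ι) (γ' : Γ), α i * mat γ = mat γ' * α i'
  uniq : ∀ (i i' : ι) (g : Γ), α i = mat g * α i' → i = i'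

namespace IsHeckeSys

variable {Γ : Subgroup SL(2, ℤ)} {ι : Type*} {α : ι → Matrix (Fin 2) (Fin 2) ℤ}
  (h : IsHeckeSys Γ α)

/-- The permutation of the representatives induced by `γ`. -/
noncomputable def perm (γ : Γ) (i : ι) : ι := (h.ex γ i).choose

/-- The cocycle: `α i * γ = coc γ i * α (perm γ i)`. -/
noncomputable def coc (γ : Γ) (i : ι) : Γ := (h.ex γ i).choose_spec.choose

theorem spec (γ : Γ) (i : ι) : α i * mat γ = mat (h.coc γ i) * α (h.perm γ i) :=
  (h.ex γ i).choose_spec.choose_spec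

include h in
theorem unique {γ : Γ} {i i' : ι} {γ' : Γ} (e : α i * mat γ = mat γ' * α i') :
    h.perm γ i = i' ∧ h.coc γ i = γ' := by
  have e' := h.spec γ i
  rw [e] at e'
  have h1 : α (h.perm γ i) = mat ((h.coc γ i)⁻¹ * γ') * α i' := by
    rw [mat_mul, Matrix.mul_assoc, e', ← Matrix.mul_assoc, mat_inv_mul, Matrix.one_mul]
  have h2 := h.uniq _ _ _ h1
  refine ⟨h2, ?_⟩
  rw [h2] at e'
  exact mat_injective (mul_right_cancel_of_det_ne_zero (h.det_ne i') e').symm

theorem perm_one (i : ι) : h.perm 1 i = i :=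
  (h.unique (γ := 1) (i := i) (i' := i) (γ' := 1) (by rw [mat_one, Matrix.mul_one,
    Matrix.one_mul])).1

theorem coc_one (i : ι) : h.coc 1 i = 1 :=
  (h.unique (γ := 1) (i := i) (i' := i) (γ' := 1) (by rw [mat_one, Matrix.mul_one,
    Matrix.one_mul])).2

theorem mul_aux (γ δ : Γ) (i : ι) :
    α i * mat (γ * δ) = mat (h.coc γ i * h.coc δ (h.perm γ i)) * α (h.perm δ (h.perm γ i)) := by
  rw [mat_mul, ← Matrix.mul_assoc, h.spec γ i, Matrix.mul_assoc, h.spec δ (h.perm γ i),
    ← Matrix.mul_assoc, ← mat_mul]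

theorem perm_mul (γ δ : Γ) (i : ι) : h.perm (γ * δ) i = h.perm δ (h.perm γ i) :=
  (h.unique (h.mul_aux γ δ i)).1

theorem coc_mul (γ δ : Γ) (i : ι) : h.coc (γ * δ) i = h.coc γ i * h.coc δ (h.perm γ i) :=
  (h.unique (h.mul_aux γ δ i)).2

/-- The permutation of the representatives induced by `γ`, as an equivalence. -/
noncomputable def permEquiv (γ : Γ) : ι ≃ ι where
  toFun := h.perm γ
  invFun := h.perm γ⁻¹
  left_inv i := by rw [← h.perm_mul, mul_inv_cancel, h.perm_one]
  right_inv i := by rw [← h.perm_mul, inv_mul_cancel, h.perm_one]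

@[simp] theorem permEquiv_apply (γ : Γ) (i : ι) : h.permEquiv γ i = h.perm γ i := rfl

variable [Fintype ι] {A : Type*} [AddCommGroup A]

/-- The Hecke operator attached to a Hecke system, on a single homomorphism. -/
noncomputable def heckeOpFun (ψ : Additive Γ →+ A) : Additive Γ →+ A where
  toFun γ := ∑ i, ψ (Additive.ofMul (h.coc (Additive.toMul γ) i))
  map_zero' := by
    show ∑ i, ψ (Additive.ofMul (h.coc 1 i)) = 0
    simp only [h.coc_one, ofMul_one, map_zero, Finset.sum_const_zero]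
  map_add' γ δ := by
    show ∑ i, ψ (Additive.ofMul (h.coc (Additive.toMul γ * Additive.toMul δ) i)) =
      ∑ i, ψ (Additive.ofMul (h.coc (Additive.toMul γ) i)) +
        ∑ i, ψ (Additive.ofMul (h.coc (Additive.toMul δ) i))
    rw [← Equiv.sum_comp (h.permEquiv (Additive.toMul γ))
      (fun i => ψ (Additive.ofMul (h.coc (Additive.toMul δ) i))), ← Finset.sum_add_distrib]
    refine Finset.sum_congr rfl fun i _ => ?_
    rw [h.coc_mul, ofMul_mul, map_add, permEquiv_apply]

theorem heckeOpFun_apply (ψ : Additive Γ →+ A) (γ : Γ) :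
    h.heckeOpFun ψ (Additive.ofMul γ) = ∑ i, ψ (Additive.ofMul (h.coc γ i)) := rfl

/-- The Hecke operator attached to a Hecke system. -/
noncomputable def heckeOp : (Additive Γ →+ A) →+ (Additive Γ →+ A) where
  toFun := h.heckeOpFun
  map_zero' := by
    refine AddMonoidHom.ext fun γ => ?_
    show ∑ i, (0 : Additive Γ →+ A) (Additive.ofMul (h.coc (Additive.toMul γ) i)) = 0
    simp
  map_add' ψ φ := by
    refine AddMonoidHom.ext fun γ => ?_
    show ∑ i, (ψ + φ) (Additive.ofMul (h.coc (Additive.toMul γ) i)) =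
      ∑ i, ψ (Additive.ofMul (h.coc (Additive.toMul γ) i)) +
        ∑ i, φ (Additive.ofMul (h.coc (Additive.toMul γ) i))
    simp [Finset.sum_add_distrib]

theorem heckeOp_apply (ψ : Additive Γ →+ A) (γ : Γ) :
    h.heckeOp ψ (Additive.ofMul γ) = ∑ i, ψ (Additive.ofMul (h.coc γ i)) := rfl

/-- Naturality in the coefficient group. -/
theorem heckeOp_comp {B : Type*} [AddCommGroup B] (φ : A →+ B) (ψ : Additive Γ →+ A) :
    h.heckeOp (φ.comp ψ) = φ.comp (h.heckeOp ψ) := by
  refine AddMonoidHom.ext fun γ => ?_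
  show ∑ i, φ (ψ (Additive.ofMul (h.coc (Additive.toMul γ) i))) =
    φ (∑ i, ψ (Additive.ofMul (h.coc (Additive.toMul γ) i)))
  rw [map_sum]

/-- The Hecke operator multiplies by the number of representatives every homomorphism `χ` whose
values on the cocycle differ from `χ γ` by a coboundary in the index. -/
theorem heckeOp_eq_card_nsmul (χ : Additive Γ →+ A) (w : ι → A)
    (hχ : ∀ (γ : Γ) (i : ι),
      χ (Additive.ofMul (h.coc γ i)) = χ (Additive.ofMul γ) + w (h.perm γ i) - w i) :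
    h.heckeOp χ = Fintype.card ι • χ := by
  refine AddMonoidHom.ext fun γ => ?_
  show ∑ i, χ (Additive.ofMul (h.coc (Additive.toMul γ) i)) = (Fintype.card ι • χ) γ
  simp only [hχ, Finset.sum_add_distrib, Finset.sum_sub_distrib, Finset.sum_const,
    Finset.card_univ]
  have h2 : ∑ i, w (h.perm (Additive.toMul γ) i) = ∑ i, w i :=
    Equiv.sum_comp (h.permEquiv (Additive.toMul γ)) w
  rw [h2, add_sub_cancel_right]
  rfl

/-- Compatibility of the Hecke operator with an automorphism `θ` of `Γ` induced by a multiplicative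
self-map `Θ` of the integer matrices which permutes the representatives up to `Γ`. -/
theorem heckeOp_comp_aut (θ : Γ →* Γ)
    (Θ : Matrix (Fin 2) (Fin 2) ℤ → Matrix (Fin 2) (Fin 2) ℤ)
    (hmul : ∀ X Y, Θ (X * Y) = Θ X * Θ Y) (hθ : ∀ γ : Γ, Θ (mat γ) = mat (θ γ))
    (π : ι ≃ ι) (t : ι → Γ) (hα : ∀ i, Θ (α i) = mat (t i) * α (π i))
    (ψ : Additive Γ →+ A) :
    h.heckeOp (ψ.comp (MonoidHom.toAdditive θ)) =
      (h.heckeOp ψ).comp (MonoidHom.toAdditive θ) := by
  refine AddMonoidHom.ext fun γ => ?_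
  set g : Γ := Additive.toMul γ with hg
  have key : ∀ i, h.coc (θ g) (π i) = (t i)⁻¹ * θ (h.coc g i) * t (h.perm g i) := by
    intro i
    have e := congrArg Θ (h.spec g i)
    rw [hmul, hmul, hθ, hθ, hα, hα] at e
    have e' : α (π i) * mat (θ g) =
        mat ((t i)⁻¹ * θ (h.coc g i) * t (h.perm g i)) * α (π (h.perm g i)) := by
      rw [mat_mul, mat_mul, Matrix.mul_assoc, Matrix.mul_assoc, ← e, ← Matrix.mul_assoc,
        ← Matrix.mul_assoc, mat_inv_mul, Matrix.one_mul]
    exact (h.unique e').2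
  show ∑ i, ψ (Additive.ofMul (θ (h.coc g i))) = ∑ i, ψ (Additive.ofMul (h.coc (θ g) i))
  rw [← Equiv.sum_comp π (fun i => ψ (Additive.ofMul (h.coc (θ g) i)))]
  simp only [key, ofMul_mul, ofMul_inv, map_add, map_neg, Finset.sum_add_distrib,
    Finset.sum_neg_distrib]
  have h2 : ∑ i, ψ (Additive.ofMul (t (h.perm g i))) = ∑ i, ψ (Additive.ofMul (t i)) := by
    rw [← Equiv.sum_comp (h.permEquiv g) (fun i => ψ (Additive.ofMul (t i)))]
    rfl
  rw [h2]
  abel

end IsHeckeSys

end Fermat.Agent.S16.H75
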