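import Mathlib
import Fermat.Agent.S16.H75.HeckeSys

/-!
# S16 (LOWER, Hecke side), part 2: the Hecke systems `T_ℓ` and `U_ℓ` for `Γ₀(N)`

The integer matrices `[[1, j], [0, ℓ]]` (`j < ℓ`) and `[[ℓ, 0], [0, 1]]` form a Hecke system for
`Γ₀(N)` when `ℓ ∤ N`; the matrices `[[1, j], [0, ℓ]]` alone form one when `ℓ ∣ N`.
-/

set_option autoImplicit false

open CongruenceSubgroup
open scoped MatrixGroups

namespace Fermat.Agent.S16.H75

theorem mem_Gamma0_iff_dvd {N : ℕ} (g : SL(2, ℤ)) :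
    g ∈ Gamma0 N ↔ (N : ℤ) ∣ (g : Matrix (Fin 2) (Fin 2) ℤ) 1 0 := by
  rw [Gamma0_mem, ZMod.intCast_zmod_eq_zero_iff_dvd]

/-- The diagonal representative `[[ℓ, 0], [0, 1]]`. -/
def alphaInf (ℓ : ℕ) : Matrix (Fin 2) (Fin 2) ℤ := !![(ℓ : ℤ), 0; 0, 1]

/-- The representative `[[1, j], [0, ℓ]]`. -/
def alphaFin (ℓ j : ℕ) : Matrix (Fin 2) (Fin 2) ℤ := !![1, (j : ℤ); 0, (ℓ : ℤ)]

/-- The representatives of `T_ℓ`. -/
def alphaT (ℓ : ℕ) : Option (Fin ℓ) → Matrix (Fin 2) (Fin 2) ℤ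
  | none => alphaInf ℓ
  | some j => alphaFin ℓ j

/-- The representatives of `U_ℓ`. -/
def alphaU (ℓ : ℕ) : Fin ℓ → Matrix (Fin 2) (Fin 2) ℤ := fun j => alphaFin ℓ j

theorem det_alphaInf (ℓ : ℕ) : (alphaInf ℓ).det = ℓ := by
  simp [alphaInf, Matrix.det_fin_two]

theorem det_alphaFin (ℓ j : ℕ) : (alphaFin ℓ j).det = ℓ := by
  simp [alphaFin, Matrix.det_fin_two]

theorem det_alphaT (ℓ : ℕ) (i : Option (Fin ℓ)) : (alphaT ℓ i).det = ℓ := by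
  cases i
  · exact det_alphaInf ℓ
  · exact det_alphaFin ℓ _

theorem sl_mul_alphaInf (g : SL(2, ℤ)) (ℓ : ℕ) :
    (g : Matrix (Fin 2) (Fin 2) ℤ) * alphaInf ℓ =
      !![(g : Matrix (Fin 2) (Fin 2) ℤ) 0 0 * ℓ, (g : Matrix (Fin 2) (Fin 2) ℤ) 0 1;
        (g : Matrix (Fin 2) (Fin 2) ℤ) 1 0 * ℓ, (g : Matrix (Fin 2) (Fin 2) ℤ) 1 1] := by
  ext i j
  fin_cases i <;> fin_cases j <;> simp [alphaInf, Matrix.mul_apply, Fin.sum_univ_two]

theorem sl_mul_alphaFin (g : SL(2, ℤ)) (ℓ j : ℕ) :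
    (g : Matrix (Fin 2) (Fin 2) ℤ) * alphaFin ℓ j =
      !![(g : Matrix (Fin 2) (Fin 2) ℤ) 0 0,
          (g : Matrix (Fin 2) (Fin 2) ℤ) 0 0 * j + (g : Matrix (Fin 2) (Fin 2) ℤ) 0 1 * ℓ;
        (g : Matrix (Fin 2) (Fin 2) ℤ) 1 0,
          (g : Matrix (Fin 2) (Fin 2) ℤ) 1 0 * j + (g : Matrix (Fin 2) (Fin 2) ℤ) 1 1 * ℓ] := by
  ext i k
  fin_cases i <;> fin_cases k <;> simp [alphaFin, Matrix.mul_apply, Fin.sum_univ_two]

theorem alphaInf_mul (ℓ : ℕ) (M : Matrix (Fin 2) (Fin 2) ℤ) :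
    alphaInf ℓ * M = !![(ℓ : ℤ) * M 0 0, (ℓ : ℤ) * M 0 1; M 1 0, M 1 1] := by
  ext i j
  fin_cases i <;> fin_cases j <;> simp [alphaInf, Matrix.mul_apply, Fin.sum_univ_two]

theorem alphaFin_mul (ℓ j : ℕ) (M : Matrix (Fin 2) (Fin 2) ℤ) :
    alphaFin ℓ j * M =
      !![M 0 0 + (j : ℤ) * M 1 0, M 0 1 + (j : ℤ) * M 1 1; (ℓ : ℤ) * M 1 0, (ℓ : ℤ) * M 1 1] := by
  ext i k
  fin_cases i <;> fin_cases k <;> simp [alphaFin, Matrix.mul_apply, Fin.sum_univ_two]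

/-- **Coset decomposition**: an integer matrix of prime determinant `ℓ` is `g * [[ℓ,0],[0,1]]` or
`g * [[1,j],[0,ℓ]]` with `g ∈ SL(2, ℤ)` and `j < ℓ`. -/
theorem exists_decomp {ℓ : ℕ} (hℓ : ℓ.Prime) (M : Matrix (Fin 2) (Fin 2) ℤ) (hdet : M.det = ℓ) :
    (∃ g : SL(2, ℤ), M = (g : Matrix (Fin 2) (Fin 2) ℤ) * alphaInf ℓ) ∨
      (∃ (j : Fin ℓ) (g : SL(2, ℤ)), M = (g : Matrix (Fin 2) (Fin 2) ℤ) * alphaFin ℓ j) := by
  have hℓ0 : (ℓ : ℤ) ≠ 0 := by exact_mod_cast hℓ.ne_zero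
  have hprime : Prime (ℓ : ℤ) := Nat.prime_iff_prime_int.mp hℓ
  rw [Matrix.det_fin_two] at hdet
  by_cases hdiv : (ℓ : ℤ) ∣ M 0 0 ∧ (ℓ : ℤ) ∣ M 1 0
  · obtain ⟨⟨x, hx⟩, ⟨y, hy⟩⟩ := hdiv
    left
    have hd : x * M 1 1 - M 0 1 * y = 1 := by
      apply mul_left_cancel₀ hℓ0
      rw [hx, hy] at hdet
      linear_combination hdet
    obtain ⟨g, hg⟩ : ∃ g : SL(2, ℤ), (g : Matrix (Fin 2) (Fin 2) ℤ) = !![x, M 0 1; y, M 1 1] :=
      ⟨⟨!![x, M 0 1; y, M 1 1], by rw [Matrix.det_fin_two_of]; exact hd⟩, rfl⟩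
    refine ⟨g, ?_⟩
    rw [sl_mul_alphaInf, hg]
    ext i k
    fin_cases i <;> fin_cases k <;> simp [hx, hy, mul_comm]
  · right
    -- find `j` with `M 0 1 ≡ M 0 0 * j` and `M 1 1 ≡ M 1 0 * j` mod `ℓ`
    have hj : ∃ j : ℤ, (ℓ : ℤ) ∣ M 0 1 - M 0 0 * j ∧ (ℓ : ℤ) ∣ M 1 1 - M 1 0 * j := by
      by_cases h00 : (ℓ : ℤ) ∣ M 0 0
      · have h10 : ¬ (ℓ : ℤ) ∣ M 1 0 := fun h => hdiv ⟨h00, h⟩
        obtain ⟨u, v, huv⟩ := (hprime.coprime_iff_not_dvd.mpr h10).symm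
        obtain ⟨z, hz⟩ := h00
        refine ⟨u * M 1 1, ⟨-u + v * M 0 1 - 0, ?_⟩, ⟨v * M 1 1, ?_⟩⟩
        · linear_combination (-u) * hdet - M 0 1 * huv
        · linear_combination (-M 1 1) * huv
      · obtain ⟨u, v, huv⟩ := (hprime.coprime_iff_not_dvd.mpr h00).symm
        refine ⟨u * M 0 1, ⟨v * M 0 1, ?_⟩, ⟨u + v * M 1 1, ?_⟩⟩
        · linear_combination (-M 0 1) * huv
        · linear_combination u * hdet - M 1 1 * huv
    obtain ⟨j, hj0, hj1⟩ := hj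
    have hℓpos : (0 : ℤ) < ℓ := by exact_mod_cast hℓ.pos
    have hjm : (ℓ : ℤ) ∣ j - j % ℓ := Int.dvd_self_sub_of_emod_eq rfl
    have hlt : (j % ℓ).toNat < ℓ := by
      have h1 : j % (ℓ : ℤ) < ℓ := Int.emod_lt_of_pos j hℓpos
      have h2 : 0 ≤ j % (ℓ : ℤ) := Int.emod_nonneg j hℓ0
      omega
    have hcast : (((j % ℓ).toNat : ℕ) : ℤ) = j % ℓ := Int.toNat_of_nonneg (Int.emod_nonneg j hℓ0)
    obtain ⟨w, hw⟩ := hjm
    have hj0' : (ℓ : ℤ) ∣ M 0 1 - M 0 0 * (j % ℓ) := by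
      obtain ⟨x, hx⟩ := hj0
      exact ⟨x + M 0 0 * w, by linear_combination hx + M 0 0 * hw⟩
    have hj1' : (ℓ : ℤ) ∣ M 1 1 - M 1 0 * (j % ℓ) := by
      obtain ⟨y, hy⟩ := hj1
      exact ⟨y + M 1 0 * w, by linear_combination hy + M 1 0 * hw⟩
    obtain ⟨x, hx⟩ := hj0'
    obtain ⟨y, hy⟩ := hj1'
    have hd : M 0 0 * y - x * M 1 0 = 1 := by
      apply mul_left_cancel₀ hℓ0
      linear_combination hdet - M 0 0 * hy + M 1 0 * hx
    obtain ⟨g, hg⟩ : ∃ g : SL(2, ℤ), (g : Matrix (Fin 2) (Fin 2) ℤ) = !![M 0 0, x; M 1 0, y] :=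
      ⟨⟨!![M 0 0, x; M 1 0, y], by rw [Matrix.det_fin_two_of]; exact hd⟩, rfl⟩
    refine ⟨⟨(j % ℓ).toNat, hlt⟩, g, ?_⟩
    rw [sl_mul_alphaFin, hg]
    ext i k
    fin_cases i <;> fin_cases k
    · simp
    · simp only [Fin.zero_eta, Fin.mk_one, Matrix.of_apply, Matrix.cons_val_zero,
        Matrix.cons_val_one, hcast]
      linear_combination hx
    · simp
    · simp only [Fin.mk_one, Matrix.of_apply, Matrix.cons_val_one, Matrix.cons_val_zero,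
        hcast]
      linear_combination hy

theorem not_prime_dvd_one {ℓ : ℕ} (hℓ : ℓ.Prime) {x : ℤ} (h : (1 : ℤ) = x * ℓ) : False := by
  have h1 : (ℓ : ℤ) ∣ 1 := ⟨x, by linarith⟩
  have h2 := Int.le_of_dvd one_pos h1
  have h3 := hℓ.two_le
  omega

theorem alphaFin_unique {ℓ : ℕ} {j j' : Fin ℓ} (g : SL(2, ℤ))
    (h : alphaFin ℓ j = (g : Matrix (Fin 2) (Fin 2) ℤ) * alphaFin ℓ j') : j = j' := by
  rw [sl_mul_alphaFin] at h
  have e00 := congrFun (congrFun h 0) 0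
  have e01 := congrFun (congrFun h 0) 1
  simp only [alphaFin, Matrix.of_apply, Matrix.cons_val_zero, Matrix.cons_val_one] at e00 e01
  rw [← e00, one_mul] at e01
  have hdvd : (ℓ : ℤ) ∣ (j : ℤ) - (j' : ℤ) := ⟨(g : Matrix (Fin 2) (Fin 2) ℤ) 0 1, by linarith⟩
  have hlt : |(j : ℤ) - (j' : ℤ)| < ℓ := by
    have h1 := j.2
    have h2 := j'.2
    rw [abs_lt]
    constructor <;> omega
  have h0 := Int.eq_zero_of_abs_lt_dvd hdvd hlt
  apply Fin.ext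
  omega

theorem alphaFin_ne_alphaInf {ℓ : ℕ} (hℓ : ℓ.Prime) {j : ℕ} (g : SL(2, ℤ))
    (h : alphaFin ℓ j = (g : Matrix (Fin 2) (Fin 2) ℤ) * alphaInf ℓ) : False := by
  rw [sl_mul_alphaInf] at h
  have e00 := congrFun (congrFun h 0) 0
  simp only [alphaFin, Matrix.of_apply, Matrix.cons_val_zero] at e00
  exact not_prime_dvd_one hℓ e00

theorem alphaInf_ne_alphaFin {ℓ : ℕ} (hℓ : ℓ.Prime) {j : ℕ} (g : SL(2, ℤ))
    (h : alphaInf ℓ = (g : Matrix (Fin 2) (Fin 2) ℤ) * alphaFin ℓ j) : False := by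
  rw [sl_mul_alphaFin] at h
  have e10 := congrFun (congrFun h 1) 0
  have e11 := congrFun (congrFun h 1) 1
  simp only [alphaInf, Matrix.of_apply, Matrix.cons_val_zero, Matrix.cons_val_one] at e10 e11
  rw [← e10, zero_mul, zero_add] at e11
  exact not_prime_dvd_one hℓ e11

/-- The Hecke system of `T_ℓ` on `Γ₀(N)`, `ℓ ∤ N`. -/
theorem isHeckeSys_T {N ℓ : ℕ} (hℓ : ℓ.Prime) (hN : ¬ ℓ ∣ N) :
    IsHeckeSys (Gamma0 N) (alphaT ℓ) where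
  det_ne i := by
    rw [det_alphaT]
    exact_mod_cast hℓ.ne_zero
  ex γ i := by
    have hγ : (N : ℤ) ∣ mat γ 1 0 := (mem_Gamma0_iff_dvd _).mp γ.2
    have hdet : (alphaT ℓ i * mat γ).det = ℓ := by
      rw [Matrix.det_mul, det_alphaT, Matrix.SpecialLinearGroup.det_coe, mul_one]
    have h10 : (N : ℤ) ∣ (alphaT ℓ i * mat γ) 1 0 := by
      cases i with
      | none =>
        show (N : ℤ) ∣ (alphaInf ℓ * mat γ) 1 0
        rw [alphaInf_mul]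
        simpa using hγ
      | some j =>
        show (N : ℤ) ∣ (alphaFin ℓ j * mat γ) 1 0
        rw [alphaFin_mul]
        simpa using Dvd.dvd.mul_left hγ (ℓ : ℤ)
    rcases exists_decomp hℓ _ hdet with ⟨g, hg⟩ | ⟨j, g, hg⟩
    · refine ⟨none, ⟨g, (mem_Gamma0_iff_dvd g).mpr ?_⟩, hg⟩
      rw [hg, sl_mul_alphaInf] at h10
      have h10' : (N : ℤ) ∣ (g : Matrix (Fin 2) (Fin 2) ℤ) 1 0 * ℓ := by simpa using h10
      have hcop : IsCoprime (N : ℤ) (ℓ : ℤ) := by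
        rw [Int.isCoprime_iff_gcd_eq_one, Int.gcd_natCast_natCast]
        exact (Nat.Coprime.symm ((Nat.Prime.coprime_iff_not_dvd hℓ).mpr hN))
      exact hcop.dvd_of_dvd_mul_right h10'
    · refine ⟨some j, ⟨g, (mem_Gamma0_iff_dvd g).mpr ?_⟩, hg⟩
      rw [hg, sl_mul_alphaFin] at h10
      simpa using h10
  uniq i i' g h := by
    cases i with
    | none =>
      cases i' with
      | none => rfl
      | some j' => exact (alphaInf_ne_alphaFin hℓ _ h).elim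
    | some j =>
      cases i' with
      | none => exact (alphaFin_ne_alphaInf hℓ _ h).elim
      | some j' => exact congrArg some (alphaFin_unique _ h)

/-- The Hecke system of `U_ℓ` on `Γ₀(N)`, `ℓ ∣ N`. -/
theorem isHeckeSys_U {N ℓ : ℕ} (hℓ : ℓ.Prime) (hN : ℓ ∣ N) :
    IsHeckeSys (Gamma0 N) (alphaU ℓ) where
  det_ne i := by
    show (alphaFin ℓ i).det ≠ 0
    rw [det_alphaFin]
    exact_mod_cast hℓ.ne_zero
  ex γ i := by
    have hγ : (N : ℤ) ∣ mat γ 1 0 := (mem_Gamma0_iff_dvd _).mp γ.2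
    have hγℓ : (ℓ : ℤ) ∣ mat γ 1 0 := dvd_trans (Int.natCast_dvd_natCast.mpr hN) hγ
    have hdet : (alphaFin ℓ i * mat γ).det = ℓ := by
      rw [Matrix.det_mul, det_alphaFin, Matrix.SpecialLinearGroup.det_coe, mul_one]
    have h10 : (N : ℤ) ∣ (alphaFin ℓ i * mat γ) 1 0 := by
      rw [alphaFin_mul]
      simpa using Dvd.dvd.mul_left hγ (ℓ : ℤ)
    rcases exists_decomp hℓ _ hdet with ⟨g, hg⟩ | ⟨j, g, hg⟩
    · exfalso
      have e00 := congrFun (congrFun hg 0) 0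
      rw [alphaFin_mul, sl_mul_alphaInf] at e00
      simp only [Matrix.of_apply, Matrix.cons_val_zero] at e00
      have hdetγ : mat γ 0 0 * mat γ 1 1 - mat γ 0 1 * mat γ 1 0 = 1 := by
        have := Matrix.SpecialLinearGroup.det_coe (γ : SL(2, ℤ))
        rwa [Matrix.det_fin_two] at this
      obtain ⟨c, hc⟩ := hγℓ
      have h1 : (1 : ℤ) = ((g : Matrix (Fin 2) (Fin 2) ℤ) 0 0 * mat γ 1 1 - (i : ℤ) * c * mat γ 1 1
          - mat γ 0 1 * c) * ℓ := by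
        rw [hc] at hdetγ e00
        linear_combination (-1 : ℤ) * hdetγ + mat γ 1 1 * e00
      exact not_prime_dvd_one hℓ h1
    · refine ⟨j, ⟨g, (mem_Gamma0_iff_dvd g).mpr ?_⟩, hg⟩
      rw [hg, sl_mul_alphaFin] at h10
      simpa using h10
  uniq i i' g h := alphaFin_unique _ h

end Fermat.Agent.S16.H75
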