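import Mathlib
import Fermat.Prelude.Def_ModularCurve_PeriodHomPair
import Fermat.Prelude.Def_CuspForm_HeckeEvalForms

/-!
# S16 (LOWER): the abstract core

Let `TZ ℓ`, `TC ℓ` be operators on `Hom(Γ₀(N), ℤ)` and `Hom(Γ₀(N), ℂ)`, compatible with the
inclusion `ℤ → ℂ`, such that the Eichler–Shimura map `periodHomPair N` intertwines the Hecke
operators `heckeFormsGen N 2 ℓ` on cusp forms with `TC ℓ`.  If `ψ : Γ₀(N) → ℤ` is a parabolic
homomorphism which is an eigenvector of all `TZ ℓ` modulo `n` with eigenvalues `a ℓ`, and some value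
of `ψ` is prime to `n`, then every polynomial `P` in the Hecke operators which vanishes on
`S₂(Γ₀(N))` satisfies `n ∣ P(a)`.
-/

set_option autoImplicit false

open CongruenceSubgroup ModularCurve ModularCurve.Period CuspForm
open scoped MatrixGroups

namespace Fermat.Agent.S16.H75

/-- The Hecke operator `T_ℓ` (`ℓ ∤ N`) resp. `U_ℓ` (`ℓ ∣ N`) on weight-2 cusp forms, as a linear
endomorphism. -/
noncomputable abbrev formOp (N : ℕ) [NeZero N] (ℓ : Nat.Primes) :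
    Module.End ℂ (CuspForm (Gamma0 N) 2) :=
  (heckeFormsGen N 2 ℓ : Module.End ℂ (CuspForm (Gamma0 N) 2))

/-- The endomorphism of `S₂(Γ₀(N))` attached to an abstract Hecke polynomial. -/
noncomputable abbrev evalOp (N : ℕ) [NeZero N] (P : HeckeAlg) :
    Module.End ℂ (CuspForm (Gamma0 N) 2) :=
  (heckeEvalForms N 2 P : Module.End ℂ (CuspForm (Gamma0 N) 2))

theorem evalOp_C (N : ℕ) [NeZero N] (c : ℤ) (f : CuspForm (Gamma0 N) 2) :
    evalOp N (MvPolynomial.C c) f = c • f := by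
  have h : evalOp N (MvPolynomial.C c) = c • (1 : Module.End ℂ (CuspForm (Gamma0 N) 2)) := by
    show ((heckeEvalForms N 2 (MvPolynomial.C c) : heckeAlgebra N 2 ∅) :
      Module.End ℂ (CuspForm (Gamma0 N) 2)) = _
    rw [heckeEvalForms_C, Subalgebra.coe_algebraMap, algebraMap_int_eq, eq_intCast,
      zsmul_eq_mul, mul_one]
  rw [h]
  rfl

theorem evalOp_add (N : ℕ) [NeZero N] (P Q : HeckeAlg) (f : CuspForm (Gamma0 N) 2) :
    evalOp N (P + Q) f = evalOp N P f + evalOp N Q f := by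
  show ((heckeEvalForms N 2 (P + Q) : heckeAlgebra N 2 ∅) :
      Module.End ℂ (CuspForm (Gamma0 N) 2)) f = _
  rw [map_add, Subalgebra.coe_add]
  rfl

theorem evalOp_mul_X (N : ℕ) [NeZero N] (P : HeckeAlg) (ℓ : Nat.Primes)
    (f : CuspForm (Gamma0 N) 2) :
    evalOp N (P * MvPolynomial.X ℓ) f = formOp N ℓ (evalOp N P f) := by
  show ((heckeEvalForms N 2 (P * MvPolynomial.X ℓ) : heckeAlgebra N 2 ∅) :
      Module.End ℂ (CuspForm (Gamma0 N) 2)) f = _
  have h : heckeEvalForms N 2 (MvPolynomial.X ℓ) = heckeFormsGen N 2 ℓ :=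
    heckeEvalForms_heckeGen N 2 ℓ
  rw [map_mul, mul_comm, h, Subalgebra.coe_mul]
  rfl

/-- **Abstract LOWER core.** -/
theorem dvd_aeval_of_eigen_mod (N : ℕ) [NeZero N] (n : ℤ) (a : Nat.Primes → ℤ)
    (TZ : Nat.Primes → (Additive (Gamma0 N) →+ ℤ) →+ (Additive (Gamma0 N) →+ ℤ))
    (TC : Nat.Primes → (Additive (Gamma0 N) →+ ℂ) → (Additive (Gamma0 N) →+ ℂ))
    (hES : parabolicHoms ℂ (Gamma0 N) ℂ ≤ LinearMap.range (periodHomPair N))
    (hnat : ∀ (ℓ : Nat.Primes) (φ : Additive (Gamma0 N) →+ ℤ),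
      TC ℓ ((Int.castAddHom ℂ).comp φ) = (Int.castAddHom ℂ).comp (TZ ℓ φ))
    (hper : ∀ (ℓ : Nat.Primes) (f g : CuspForm (Gamma0 N) 2),
      periodHomPair N (formOp N ℓ f, formOp N ℓ g) = TC ℓ (periodHomPair N (f, g)))
    (ψ : Additive (Gamma0 N) →+ ℤ) (hpar : ψ ∈ parabolicHoms ℤ (Gamma0 N) ℤ)
    (heig : ∀ ℓ : Nat.Primes, ∃ θ : Additive (Gamma0 N) →+ ℤ, TZ ℓ ψ = a ℓ • ψ + n • θ)
    (γ₀ : Gamma0 N) (hγ₀ : IsCoprime (ψ (Additive.ofMul γ₀)) n)
    (P : HeckeAlg) (hP : heckeEvalForms N 2 P = 0) :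
    n ∣ MvPolynomial.aeval a P := by
  have hψC : (Int.castAddHom ℂ).comp ψ ∈ parabolicHoms ℂ (Gamma0 N) ℂ := by
    intro γ hγ
    show ((ψ (Additive.ofMul γ) : ℤ) : ℂ) = 0
    rw [hpar γ hγ, Int.cast_zero]
  obtain ⟨⟨f₀, g₀⟩, hv⟩ := hES hψC
  have key : ∀ Q : HeckeAlg, ∃ φ : Additive (Gamma0 N) →+ ℤ,
      periodHomPair N (evalOp N Q f₀, evalOp N Q g₀) =
        (Int.castAddHom ℂ).comp (MvPolynomial.aeval a Q • ψ + n • φ) := by
    intro Q
    induction Q using MvPolynomial.induction_on with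
    | C c =>
      refine ⟨0, ?_⟩
      rw [evalOp_C, evalOp_C, ← Prod.smul_mk, map_zsmul, hv, MvPolynomial.aeval_C, smul_zero,
        add_zero]
      refine AddMonoidHom.ext fun γ => ?_
      simp
    | add Q₁ Q₂ h₁ h₂ =>
      obtain ⟨φ₁, h₁⟩ := h₁
      obtain ⟨φ₂, h₂⟩ := h₂
      refine ⟨φ₁ + φ₂, ?_⟩
      rw [evalOp_add, evalOp_add, ← Prod.mk_add_mk, map_add, h₁, h₂, map_add]
      refine AddMonoidHom.ext fun γ => ?_
      simp
      ring
    | mul_X Q ℓ h =>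
      obtain ⟨φ, h⟩ := h
      obtain ⟨θ, hθ⟩ := heig ℓ
      refine ⟨MvPolynomial.aeval a Q • θ + TZ ℓ φ, ?_⟩
      rw [evalOp_mul_X, evalOp_mul_X, hper, h, hnat, map_add, map_zsmul, map_zsmul, hθ, map_mul,
        MvPolynomial.aeval_X]
      refine AddMonoidHom.ext fun γ => ?_
      simp
      ring
  obtain ⟨φ, hφ⟩ := key P
  have h0 : evalOp N P = 0 := by
    show ((heckeEvalForms N 2 P : heckeAlgebra N 2 ∅) :
      Module.End ℂ (CuspForm (Gamma0 N) 2)) = 0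
    rw [hP]
    rfl
  rw [h0] at hφ
  have h1 := DFunLike.congr_fun hφ (Additive.ofMul γ₀)
  have h2 : ((MvPolynomial.aeval a P * ψ (Additive.ofMul γ₀) + n * φ (Additive.ofMul γ₀) : ℤ) : ℂ)
      = 0 := by
    have h3 : periodHomPair N ((0 : Module.End ℂ (CuspForm (Gamma0 N) 2)) f₀,
        (0 : Module.End ℂ (CuspForm (Gamma0 N) 2)) g₀) = 0 := by
      rw [LinearMap.zero_apply, LinearMap.zero_apply, ← Prod.zero_eq_mk, map_zero]
    rw [h3] at h1
    rw [eq_comm] at h1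
    simpa using h1
  have h3 : MvPolynomial.aeval a P * ψ (Additive.ofMul γ₀) + n * φ (Additive.ofMul γ₀) = 0 := by
    exact_mod_cast h2
  have h4 : n ∣ MvPolynomial.aeval a P * ψ (Additive.ofMul γ₀) :=
    ⟨-φ (Additive.ofMul γ₀), by linear_combination h3⟩
  exact hγ₀.symm.dvd_of_dvd_mul_right h4

end Fermat.Agent.S16.H75
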