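import Mathlib
import Fermat.Prelude.Def_ModularCurve_PeriodHomPair
import Fermat.Prelude.Def_CuspForm_HeckeEvalForms
import Fermat.Agent.S21.H21.Primitive

/-!
# S16 (LOWER), L4: Hecke-equivariance of the period map — generic analytic part

For a finite family of self-maps `act i` of the upper half-plane (Möbius transformations in
practice) satisfying the coset relation `act i (γ • τ) = coc γ i • act (perm γ i) τ` for all
`γ ∈ Γ₀(N)`, and weight-2 cusp forms `f`, `g` such that `∑ i, F ∘ act i` is a primitive of `g`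
whenever `F` is the equivariant primitive of `f`, the period homomorphisms satisfy
`per_g(γ) = ∑ i, per_f(coc γ i)`.  This is then specialised to the Prelude Hecke operators
`heckeT 2 p`, `heckeU 2 p`.
-/

set_option autoImplicit false

open UpperHalfPlane hiding I
open Complex Filter Function CongruenceSubgroup ModularCurve ModularCurve.Period
open scoped Real Topology MatrixGroups ModularForm

namespace Fermat.Agent.S16.H75

/-- Two functions on `ℍ` with the same complex derivative differ by a constant. -/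
theorem sub_eq_sub_of_hasDerivAt {F G g : ℍ → ℂ}
    (hF : ∀ τ : ℍ, HasDerivAt (F ∘ ofComplex) (g τ) ↑τ)
    (hG : ∀ τ : ℍ, HasDerivAt (G ∘ ofComplex) (g τ) ↑τ) (z w : ℍ) :
    F z - G z = F w - G w := by
  have hd : ∀ u ∈ {z : ℂ | 0 < z.im}, HasDerivAt ((F - G) ∘ ofComplex) 0 u := by
    intro u hu
    have h1 := hF ⟨u, hu⟩
    have h2 := hG ⟨u, hu⟩
    have h3 := h1.sub h2
    rw [sub_self] at h3
    exact h3
  have hdiff : DifferentiableOn ℂ ((F - G) ∘ ofComplex) {z : ℂ | 0 < z.im} := fun u hu =>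
    (hd u hu).differentiableAt.differentiableWithinAt
  have hderiv : Set.EqOn (deriv ((F - G) ∘ ofComplex)) 0 {z : ℂ | 0 < z.im} := fun u hu =>
    (hd u hu).deriv
  have := isOpen_upperHalfPlaneSet.is_const_of_deriv_eq_zero
    (Convex.isPreconnected (convex_halfSpace_im_gt 0)) hdiff hderiv z.im_pos w.im_pos
  rw [comp_apply, comp_apply, ofComplex_apply, ofComplex_apply] at this
  exact this

/-- Chain rule for a primitive composed with a holomorphic self-map of `ℍ`. -/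
theorem hasDerivAt_comp_act {F f : ℍ → ℂ} (hF : ∀ τ : ℍ, HasDerivAt (F ∘ ofComplex) (f τ) ↑τ)
    (act : ℍ → ℍ) (m : ℂ → ℂ) (hm : ∀ z : ℍ, ((act z : ℍ) : ℂ) = m z) (c : ℂ) (τ : ℍ)
    (hc : HasDerivAt m c ↑τ) :
    HasDerivAt ((fun z : ℍ => F (act z)) ∘ ofComplex) (f (act τ) * c) ↑τ := by
  have h1 : HasDerivAt (F ∘ ofComplex) (f (act τ)) (m ↑τ) := by
    rw [← hm τ]
    exact hF (act τ)
  have h2 := HasDerivAt.comp (↑τ : ℂ) h1 hc
  refine h2.congr_of_eventuallyEq ?_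
  have hopen : {z : ℂ | 0 < z.im} ∈ 𝓝 (↑τ : ℂ) := isOpen_upperHalfPlaneSet.mem_nhds τ.im_pos
  filter_upwards [hopen] with w hw
  have hw' : ofComplex w = ⟨w, hw⟩ := ofComplex_apply_of_im_pos hw
  simp only [comp_apply, hw']
  rw [← hm ⟨w, hw⟩, ofComplex_apply]

/-- **Generic Hecke-equivariance of the period map.** -/
theorem periodMap_eq_sum_of_rel {N : ℕ} [NeZero N] {ι : Type*} [Fintype ι] (act : ι → ℍ → ℍ)
    (coc : Gamma0 N → ι → Gamma0 N) (perm : Gamma0 N → ι ≃ ι)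
    (hrel : ∀ (γ : Gamma0 N) (i : ι) (τ : ℍ),
      act i ((γ : SL(2, ℤ)) • τ) = ((coc γ i : Gamma0 N) : SL(2, ℤ)) • act (perm γ i) τ)
    {f g : CuspForm (Gamma0 N) 2} {F : ℍ → ℂ} (hF : HasEquivariantPrimitive N f F)
    (hder : ∀ τ : ℍ, HasDerivAt ((fun z : ℍ => ∑ i, F (act i z)) ∘ ofComplex) (g τ) ↑τ)
    (γ : Gamma0 N) :
    periodMap N g (Additive.ofMul γ) = ∑ i, periodMap N f (Additive.ofMul (coc γ i)) := by
  obtain ⟨G, hG⟩ := Fermat.Agent.S21.H21.exists_hasEquivariantPrimitive N g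
  rw [Fermat.Agent.S21.H21.periodMap_apply hG γ UpperHalfPlane.I]
  have hconst := sub_eq_sub_of_hasDerivAt hG.1 hder ((γ : SL(2, ℤ)) • UpperHalfPlane.I)
    UpperHalfPlane.I
  have h1 : G ((γ : SL(2, ℤ)) • UpperHalfPlane.I) - G UpperHalfPlane.I =
      ∑ i, F (act i ((γ : SL(2, ℤ)) • UpperHalfPlane.I)) - ∑ i, F (act i UpperHalfPlane.I) := by
    linear_combination hconst
  rw [h1]
  have h2 : ∀ i, F (act i ((γ : SL(2, ℤ)) • UpperHalfPlane.I)) =
      periodMap N f (Additive.ofMul (coc γ i)) + F (act (perm γ i) UpperHalfPlane.I) := by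
    intro i
    rw [hrel γ i, Fermat.Agent.S21.H21.periodMap_apply hF (coc γ i)
      (act (perm γ i) UpperHalfPlane.I)]
    ring
  simp only [h2, Finset.sum_add_distrib]
  rw [Equiv.sum_comp (perm γ) (fun i => F (act i UpperHalfPlane.I))]
  ring

/-- The representatives of the Prelude operator `heckeT k p`, indexed by `Option (Fin p)`:
`none ↦ [[p, 0], [0, 1]]`, `some j ↦ [[1, j], [0, p]]`. -/
noncomputable def famT (p : ℕ) : Option (Fin p) → GL (Fin 2) ℝ
  | none => ModularForm.heckeDiagMatrix p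
  | some j => ModularForm.heckeMatrix p j

/-- The representatives of the Prelude operator `heckeU k p`: `j ↦ [[1, j], [0, p]]`. -/
noncomputable def famU (p : ℕ) : Fin p → GL (Fin 2) ℝ := fun j => ModularForm.heckeMatrix p j

@[simp] theorem famT_none (p : ℕ) : famT p none = ModularForm.heckeDiagMatrix p := rfl

@[simp] theorem famT_some (p : ℕ) (j : Fin p) : famT p (some j) = ModularForm.heckeMatrix p j := rfl

@[simp] theorem famU_apply (p : ℕ) (j : Fin p) : famU p j = ModularForm.heckeMatrix p j := rfl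

/-- The `SL(2, ℤ)`-action on `ℍ` is the `GL(2, ℝ)`-action of the image. -/
theorem sl_smul_eq_mapGL_smul (γ : SL(2, ℤ)) (τ : ℍ) :
    γ • τ = (Matrix.SpecialLinearGroup.mapGL ℝ γ) • τ := rfl

/-- A matrix relation in `GL(2, ℝ)` gives the relation of the actions on `ℍ`. -/
theorem act_rel_of_matrix_rel {a a' : GL (Fin 2) ℝ} {γ γ' : SL(2, ℤ)}
    (h : a * Matrix.SpecialLinearGroup.mapGL ℝ γ = Matrix.SpecialLinearGroup.mapGL ℝ γ' * a')
    (τ : ℍ) : a • (γ • τ) = γ' • (a' • τ) := by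
  rw [sl_smul_eq_mapGL_smul, sl_smul_eq_mapGL_smul, ← mul_smul, ← mul_smul, h]

theorem hasDerivAt_heckeMatrix {F f : ℍ → ℂ}
    (hF : ∀ τ : ℍ, HasDerivAt (F ∘ ofComplex) (f τ) ↑τ) {p : ℕ} (hp : p ≠ 0) (j : ℕ) (τ : ℍ) :
    HasDerivAt ((fun z : ℍ => F (ModularForm.heckeMatrix p j • z)) ∘ ofComplex)
      (f (ModularForm.heckeMatrix p j • τ) * (p : ℂ)⁻¹) ↑τ := by
  refine hasDerivAt_comp_act hF (fun z => ModularForm.heckeMatrix p j • z)
    (fun w => (w + j) / p) (fun z => ModularForm.coe_heckeMatrix_smul hp j z) _ τ ?_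
  have h := ((hasDerivAt_id (↑τ : ℂ)).add_const (j : ℂ)).div_const (p : ℂ)
  simpa [one_div] using h

theorem hasDerivAt_heckeDiagMatrix {F f : ℍ → ℂ}
    (hF : ∀ τ : ℍ, HasDerivAt (F ∘ ofComplex) (f τ) ↑τ) {p : ℕ} (hp : p ≠ 0) (τ : ℍ) :
    HasDerivAt ((fun z : ℍ => F (ModularForm.heckeDiagMatrix p • z)) ∘ ofComplex)
      (f (ModularForm.heckeDiagMatrix p • τ) * (p : ℂ)) ↑τ := by
  refine hasDerivAt_comp_act hF (fun z => ModularForm.heckeDiagMatrix p • z)
    (fun w => (p : ℂ) * w) (fun z => ModularForm.coe_heckeDiagMatrix_smul hp z) _ τ ?_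
  have h := (hasDerivAt_id (↑τ : ℂ)).const_mul (p : ℂ)
  simpa using h

/-- `∑ j, F ∘ [[1, j], [0, p]]` is a primitive of `heckeU 2 p f`. -/
theorem hasDerivAt_sum_famU {F f : ℍ → ℂ}
    (hF : ∀ τ : ℍ, HasDerivAt (F ∘ ofComplex) (f τ) ↑τ) {p : ℕ} (hp : p ≠ 0) (τ : ℍ) :
    HasDerivAt ((fun z : ℍ => ∑ i, F (famU p i • z)) ∘ ofComplex)
      (ModularForm.heckeU 2 p f τ) ↑τ := by
  have h := HasDerivAt.fun_sum (u := (Finset.univ : Finset (Fin p)))
    (fun i _ => hasDerivAt_heckeMatrix hF hp (i : ℕ) τ)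
  have hval : ∑ i : Fin p, f (ModularForm.heckeMatrix p (i : ℕ) • τ) * (p : ℂ)⁻¹ =
      ModularForm.heckeU 2 p f τ := by
    rw [ModularForm.heckeU_apply 2 hp, ← Finset.sum_mul,
      Fin.sum_univ_eq_sum_range (fun j => f (ModularForm.heckeMatrix p j • τ)) p, mul_comm]
  rw [hval] at h
  exact h

/-- `∑ j, F ∘ [[1, j], [0, p]] + F ∘ [[p, 0], [0, 1]]` is a primitive of `heckeT 2 p f`. -/
theorem hasDerivAt_sum_famT {F f : ℍ → ℂ}
    (hF : ∀ τ : ℍ, HasDerivAt (F ∘ ofComplex) (f τ) ↑τ) {p : ℕ} (hp : p ≠ 0) (τ : ℍ) :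
    HasDerivAt ((fun z : ℍ => ∑ i, F (famT p i • z)) ∘ ofComplex)
      (ModularForm.heckeT 2 p f τ) ↑τ := by
  have h := (hasDerivAt_heckeDiagMatrix hF hp τ).add (HasDerivAt.fun_sum
    (u := (Finset.univ : Finset (Fin p))) (fun i _ => hasDerivAt_heckeMatrix hF hp (i : ℕ) τ))
  have hval : f (ModularForm.heckeDiagMatrix p • τ) * (p : ℂ) +
      ∑ i : Fin p, f (ModularForm.heckeMatrix p (i : ℕ) • τ) * (p : ℂ)⁻¹ =
      ModularForm.heckeT 2 p f τ := by
    rw [ModularForm.heckeT_apply 2 hp, ← Finset.sum_mul,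
      Fin.sum_univ_eq_sum_range (fun j => f (ModularForm.heckeMatrix p j • τ)) p]
    norm_num
    ring
  rw [hval] at h
  refine h.congr_of_eventuallyEq (Eventually.of_forall fun w => ?_)
  simp only [comp_apply, Fintype.sum_option, famT_none, famT_some, Pi.add_apply]

/-- **Period map of `T_p f`** (`p ∤ N`), for any solution `(coc, perm)` of the coset relation
`famT p i * γ = coc γ i * famT p (perm γ i)` in `GL(2, ℝ)`. -/
theorem periodMap_heckeTLin {N : ℕ} [NeZero N] {p : ℕ} (hp : p.Prime) (hpN : ¬ p ∣ N)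
    (coc : Gamma0 N → Option (Fin p) → Gamma0 N)
    (perm : Gamma0 N → Option (Fin p) ≃ Option (Fin p))
    (hrel : ∀ (γ : Gamma0 N) (i : Option (Fin p)),
      famT p i * Matrix.SpecialLinearGroup.mapGL ℝ (γ : SL(2, ℤ)) =
        Matrix.SpecialLinearGroup.mapGL ℝ ((coc γ i : Gamma0 N) : SL(2, ℤ)) * famT p (perm γ i))
    (f : CuspForm (Gamma0 N) 2) (γ : Gamma0 N) :
    periodMap N (CuspForm.heckeTLin 2 hp hpN f) (Additive.ofMul γ) =
      ∑ i, periodMap N f (Additive.ofMul (coc γ i)) := by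
  obtain ⟨F, hF⟩ := Fermat.Agent.S21.H21.exists_hasEquivariantPrimitive N f
  exact periodMap_eq_sum_of_rel (fun i z => famT p i • z) coc perm
    (fun γ i τ => act_rel_of_matrix_rel (hrel γ i) τ) hF
    (fun τ => hasDerivAt_sum_famT hF.1 hp.ne_zero τ) γ

/-- **Period map of `U_p f`** (`p ∣ N`), for any solution `(coc, perm)` of the coset relation
`famU p i * γ = coc γ i * famU p (perm γ i)` in `GL(2, ℝ)`. -/
theorem periodMap_heckeULin {N : ℕ} [NeZero N] {p : ℕ} (hp : p ≠ 0) (hpN : p ∣ N)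
    (coc : Gamma0 N → Fin p → Gamma0 N) (perm : Gamma0 N → Fin p ≃ Fin p)
    (hrel : ∀ (γ : Gamma0 N) (i : Fin p),
      famU p i * Matrix.SpecialLinearGroup.mapGL ℝ (γ : SL(2, ℤ)) =
        Matrix.SpecialLinearGroup.mapGL ℝ ((coc γ i : Gamma0 N) : SL(2, ℤ)) * famU p (perm γ i))
    (f : CuspForm (Gamma0 N) 2) (γ : Gamma0 N) :
    periodMap N (CuspForm.heckeULin 2 hpN f) (Additive.ofMul γ) =
      ∑ i, periodMap N f (Additive.ofMul (coc γ i)) := by
  obtain ⟨F, hF⟩ := Fermat.Agent.S21.H21.exists_hasEquivariantPrimitive N f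
  exact periodMap_eq_sum_of_rel (fun i z => famU p i • z) coc perm
    (fun γ i τ => act_rel_of_matrix_rel (hrel γ i) τ) hF
    (fun τ => hasDerivAt_sum_famU hF.1 hp τ) γ

end Fermat.Agent.S16.H75
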