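import Mathlib
import Fermat.Agent.S16.H75.Gamma0Sys
import Fermat.Agent.S16.H75.PeriodHecke
import Fermat.Agent.S16.H75.LowerCore

/-!
# S16 (LOWER, Hecke side), part 3: the operators `heckeHom N ℓ` on `Hom(Γ₀(N), A)`

* `heckeHom N ℓ A`: `T_ℓ` (`ℓ ∤ N`) resp. `U_ℓ` (`ℓ ∣ N`) on `Hom(Γ₀(N), A)`, with the
  representatives of the Prelude operators `heckeT`, `heckeU`;
* naturality in `A`;
* `periodMap N (formOp N ℓ f) = heckeHom N ℓ ℂ (periodMap N f)`;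
* compatibility with `charInvolution`, hence with `periodHomPair`;
* the eigen-computation on characters factoring through the lower-right entry mod `N`.
-/

set_option autoImplicit false

open UpperHalfPlane hiding I
open CongruenceSubgroup ModularCurve ModularCurve.Period CuspForm
open scoped MatrixGroups

namespace Fermat.Agent.S16.H75

/-- The Hecke operator `T_ℓ` (`ℓ ∤ N`) resp. `U_ℓ` (`ℓ ∣ N`) on `Hom(Γ₀(N), A)`. -/
noncomputable def heckeHom (N : ℕ) (ℓ : Nat.Primes) (A : Type*) [AddCommGroup A] :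
    (Additive (Gamma0 N) →+ A) →+ (Additive (Gamma0 N) →+ A) :=
  if h : (ℓ : ℕ) ∣ N then (isHeckeSys_U (N := N) ℓ.2 h).heckeOp
  else (isHeckeSys_T (N := N) ℓ.2 h).heckeOp

theorem heckeHom_of_dvd {N : ℕ} {ℓ : Nat.Primes} (h : (ℓ : ℕ) ∣ N) (A : Type*) [AddCommGroup A] :
    heckeHom N ℓ A = (isHeckeSys_U (N := N) ℓ.2 h).heckeOp := dif_pos h

theorem heckeHom_of_not_dvd {N : ℕ} {ℓ : Nat.Primes} (h : ¬ (ℓ : ℕ) ∣ N) (A : Type*)
    [AddCommGroup A] :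
    heckeHom N ℓ A = (isHeckeSys_T (N := N) ℓ.2 h).heckeOp := dif_neg h

/-- Naturality of `heckeHom` in the coefficient group. -/
theorem heckeHom_comp (N : ℕ) (ℓ : Nat.Primes) {A B : Type*} [AddCommGroup A] [AddCommGroup B]
    (φ : A →+ B) (ψ : Additive (Gamma0 N) →+ A) :
    heckeHom N ℓ B (φ.comp ψ) = φ.comp (heckeHom N ℓ A ψ) := by
  by_cases h : (ℓ : ℕ) ∣ N
  · rw [heckeHom_of_dvd h, heckeHom_of_dvd h]
    exact IsHeckeSys.heckeOp_comp _ φ ψ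
  · rw [heckeHom_of_not_dvd h, heckeHom_of_not_dvd h]
    exact IsHeckeSys.heckeOp_comp _ φ ψ

/-! ### Bridge to `GL(2, ℝ)` -/

theorem coe_mapGL_eq_map (g : SL(2, ℤ)) :
    ((Matrix.SpecialLinearGroup.mapGL ℝ g : GL (Fin 2) ℝ) : Matrix (Fin 2) (Fin 2) ℝ) =
      (g : Matrix (Fin 2) (Fin 2) ℤ).map (Int.castRingHom ℝ) := by
  ext i j
  simp [Matrix.SpecialLinearGroup.mapGL_coe_matrix]

theorem gl_rel_of_int_rel {a a' : GL (Fin 2) ℝ} {α α' : Matrix (Fin 2) (Fin 2) ℤ}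
    (ha : (a : Matrix (Fin 2) (Fin 2) ℝ) = α.map (Int.castRingHom ℝ))
    (ha' : (a' : Matrix (Fin 2) (Fin 2) ℝ) = α'.map (Int.castRingHom ℝ))
    {γ γ' : SL(2, ℤ)}
    (h : α * (γ : Matrix (Fin 2) (Fin 2) ℤ) = (γ' : Matrix (Fin 2) (Fin 2) ℤ) * α') :
    a * Matrix.SpecialLinearGroup.mapGL ℝ γ = Matrix.SpecialLinearGroup.mapGL ℝ γ' * a' := by
  apply Units.ext
  rw [Units.val_mul, Units.val_mul, ha, ha', coe_mapGL_eq_map, coe_mapGL_eq_map,
    ← Matrix.map_mul, ← Matrix.map_mul, h]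

theorem coe_heckeMatrix_eq_map {ℓ : ℕ} (hℓ : ℓ ≠ 0) (j : ℕ) :
    ((ModularForm.heckeMatrix ℓ j : GL (Fin 2) ℝ) : Matrix (Fin 2) (Fin 2) ℝ) =
      (alphaFin ℓ j).map (Int.castRingHom ℝ) := by
  rw [ModularForm.val_heckeMatrix hℓ]
  ext i k
  fin_cases i <;> fin_cases k <;> simp [alphaFin]

theorem coe_heckeDiagMatrix_eq_map {ℓ : ℕ} (hℓ : ℓ ≠ 0) :
    ((ModularForm.heckeDiagMatrix ℓ : GL (Fin 2) ℝ) : Matrix (Fin 2) (Fin 2) ℝ) =
      (alphaInf ℓ).map (Int.castRingHom ℝ) := by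
  rw [ModularForm.val_heckeDiagMatrix hℓ]
  ext i k
  fin_cases i <;> fin_cases k <;> simp [alphaInf]

theorem coe_famT_eq_map {ℓ : ℕ} (hℓ : ℓ ≠ 0) (i : Option (Fin ℓ)) :
    ((famT ℓ i : GL (Fin 2) ℝ) : Matrix (Fin 2) (Fin 2) ℝ) =
      (alphaT ℓ i).map (Int.castRingHom ℝ) := by
  cases i
  · exact coe_heckeDiagMatrix_eq_map hℓ
  · exact coe_heckeMatrix_eq_map hℓ _

theorem coe_famU_eq_map {ℓ : ℕ} (hℓ : ℓ ≠ 0) (i : Fin ℓ) :
    ((famU ℓ i : GL (Fin 2) ℝ) : Matrix (Fin 2) (Fin 2) ℝ) =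
      (alphaU ℓ i).map (Int.castRingHom ℝ) :=
  coe_heckeMatrix_eq_map hℓ _

/-- **L4**: the period map intertwines the Hecke operators on cusp forms and on `Hom(Γ₀(N), ℂ)`. -/
theorem periodMap_formOp (N : ℕ) [NeZero N] (ℓ : Nat.Primes) (f : CuspForm (Gamma0 N) 2) :
    periodMap N (formOp N ℓ f) = heckeHom N ℓ ℂ (periodMap N f) := by
  refine AddMonoidHom.ext fun γ => ?_
  by_cases h : (ℓ : ℕ) ∣ N
  · have hf : formOp N ℓ f = CuspForm.heckeULin 2 h f := by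
      show ((heckeFormsGen N 2 ℓ : heckeAlgebra N 2 ∅) :
        Module.End ℂ (CuspForm (Gamma0 N) 2)) f = _
      rw [heckeFormsGen_of_dvd h, heckeAlgebra.coe_U]
    rw [hf, heckeHom_of_dvd h]
    exact periodMap_heckeULin ℓ.2.ne_zero h (isHeckeSys_U ℓ.2 h).coc (isHeckeSys_U ℓ.2 h).permEquiv
      (fun γ i => gl_rel_of_int_rel (coe_famU_eq_map ℓ.2.ne_zero i)
        (coe_famU_eq_map ℓ.2.ne_zero _) ((isHeckeSys_U ℓ.2 h).spec γ i)) f (Additive.toMul γ)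
  · have hf : formOp N ℓ f = CuspForm.heckeTLin 2 ℓ.2 h f := by
      show ((heckeFormsGen N 2 ℓ : heckeAlgebra N 2 ∅) :
        Module.End ℂ (CuspForm (Gamma0 N) 2)) f = _
      rw [heckeFormsGen_of_not_dvd h, heckeAlgebra.coe_T]
    rw [hf, heckeHom_of_not_dvd h]
    exact periodMap_heckeTLin ℓ.2 h (isHeckeSys_T ℓ.2 h).coc (isHeckeSys_T ℓ.2 h).permEquiv
      (fun γ i => gl_rel_of_int_rel (coe_famT_eq_map ℓ.2.ne_zero i)
        (coe_famT_eq_map ℓ.2.ne_zero _) ((isHeckeSys_T ℓ.2 h).spec γ i)) f (Additive.toMul γ)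

/-! ### Compatibility with the involution `charInvolution` -/

theorem jConjMat_alphaInf (ℓ : ℕ) : jConjMat (alphaInf ℓ) = alphaInf ℓ := by
  ext i j
  fin_cases i <;> fin_cases j <;> simp [jConjMat, alphaInf]

/-- The upper unipotent elements of `SL(2, ℤ)`. -/
def unipSL (m : ℤ) : SL(2, ℤ) := ⟨!![1, m; 0, 1], by simp [Matrix.det_fin_two_of]⟩

theorem unipSL_mem (N : ℕ) (m : ℤ) : unipSL m ∈ Gamma0 N := by
  rw [mem_Gamma0_iff_dvd]
  show (N : ℤ) ∣ (!![1, m; 0, 1] : Matrix (Fin 2) (Fin 2) ℤ) 1 0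
  simp

/-- The upper unipotent elements of `Γ₀(N)`. -/
def unipG (N : ℕ) (m : ℤ) : Gamma0 N := ⟨unipSL m, unipSL_mem N m⟩

theorem mat_unipG (N : ℕ) (m : ℤ) : mat (unipG N m) = !![1, m; 0, 1] := rfl

theorem exists_jConj_alphaFin (N : ℕ) {ℓ : ℕ} [NeZero ℓ] (j : Fin ℓ) :
    ∃ t : Gamma0 N, jConjMat (alphaFin ℓ j) = mat t * alphaFin ℓ ((-j : Fin ℓ) : ℕ) := by
  have h0 : ((j + -j : Fin ℓ) : ℕ) = 0 := by rw [add_neg_cancel]; rfl
  rw [Fin.val_add] at h0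
  obtain ⟨m, hm⟩ := Nat.dvd_of_mod_eq_zero h0
  have hm' : (j : ℤ) + ((-j : Fin ℓ) : ℕ) = (ℓ : ℤ) * m := by exact_mod_cast hm
  refine ⟨unipG N (-m), ?_⟩
  rw [mat_unipG]
  ext i k
  fin_cases i <;> fin_cases k
  · simp [jConjMat, alphaFin, Matrix.mul_apply, Fin.sum_univ_two]
  · simp only [jConjMat, alphaFin, Matrix.mul_apply, Fin.sum_univ_two, Fin.zero_eta, Fin.mk_one,
      Matrix.of_apply, Matrix.cons_val_zero, Matrix.cons_val_one]
    linear_combination (-1 : ℤ) * hm'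
  · simp [jConjMat, alphaFin, Matrix.mul_apply, Fin.sum_univ_two]
  · simp [jConjMat, alphaFin, Matrix.mul_apply, Fin.sum_univ_two]

/-- `heckeHom` commutes with the involution induced by conjugation with `diag(-1, 1)`. -/
theorem heckeHom_charInvolution (N : ℕ) (ℓ : Nat.Primes) (R : Type*) [Semiring R] (A : Type*)
    [AddCommGroup A] [Module R A] (ψ : Additive (Gamma0 N) →+ A) :
    heckeHom N ℓ A (charInvolution N R A ψ) = charInvolution N R A (heckeHom N ℓ A ψ) := by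
  have : NeZero (ℓ : ℕ) := ⟨ℓ.2.ne_zero⟩
  choose t ht using exists_jConj_alphaFin N (ℓ := (ℓ : ℕ))
  by_cases h : (ℓ : ℕ) ∣ N
  · rw [heckeHom_of_dvd h]
    exact IsHeckeSys.heckeOp_comp_aut _ (jConjGamma0 N) jConjMat jConjMat_mul (fun _ => rfl)
      (Equiv.neg (Fin (ℓ : ℕ))) t ht ψ
  · rw [heckeHom_of_not_dvd h]
    refine IsHeckeSys.heckeOp_comp_aut _ (jConjGamma0 N) jConjMat jConjMat_mul (fun _ => rfl)
      (Equiv.optionCongr (Equiv.neg (Fin (ℓ : ℕ)))) (fun i => i.elim 1 t) ?_ ψ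
    intro i
    cases i with
    | none =>
      show jConjMat (alphaInf ℓ) = mat (1 : Gamma0 N) * alphaInf ℓ
      rw [jConjMat_alphaInf, mat_one, Matrix.one_mul]
    | some j => exact ht j

/-- **L4 for `periodHomPair`.** -/
theorem periodHomPair_formOp (N : ℕ) [NeZero N] (ℓ : Nat.Primes) (f g : CuspForm (Gamma0 N) 2) :
    periodHomPair N (formOp N ℓ f, formOp N ℓ g) = heckeHom N ℓ ℂ (periodHomPair N (f, g)) := by
  rw [Fermat.Agent.S21.H21.periodHomPair_apply, Fermat.Agent.S21.H21.periodHomPair_apply,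
    periodMap_formOp, periodMap_formOp, map_add, map_add, map_sub, heckeHom_charInvolution,
    heckeHom_charInvolution]

/-! ### The eigen-computation on characters of the lower-right entry -/

/-- The character `Γ₀(N) → (ℤ/N)ˣ`, `γ ↦ d_γ`. -/
noncomputable def dUnit (N : ℕ) : Gamma0 N →* (ZMod N)ˣ := (Gamma0Map N).toHomUnits

theorem coe_dUnit {N : ℕ} (γ : Gamma0 N) :
    ((dUnit N γ : (ZMod N)ˣ) : ZMod N) = ((mat γ 1 1 : ℤ) : ZMod N) := rfl

theorem cast_a_mul_cast_d {N : ℕ} (γ : Gamma0 N) :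
    ((mat γ 0 0 : ℤ) : ZMod N) * ((mat γ 1 1 : ℤ) : ZMod N) = 1 := by
  have hdet : mat γ 0 0 * mat γ 1 1 - mat γ 0 1 * mat γ 1 0 = 1 := by
    have := Matrix.SpecialLinearGroup.det_coe (γ : SL(2, ℤ))
    rwa [Matrix.det_fin_two] at this
  have hc : ((mat γ 1 0 : ℤ) : ZMod N) = 0 := Gamma0_mem.mp γ.2
  have h := congrArg (Int.cast : ℤ → ZMod N) hdet
  push_cast at h
  rw [hc, mul_zero, sub_zero] at h
  exact h

theorem dUnit_coc {N : ℕ} {ι : Type*} {α : ι → Matrix (Fin 2) (Fin 2) ℤ}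
    (h : IsHeckeSys (Gamma0 N) α) (hut : ∀ i, α i 1 0 = 0) (u : ι → (ZMod N)ˣ)
    (hu : ∀ i, ((u i : (ZMod N)ˣ) : ZMod N) = ((α i 0 0 : ℤ) : ZMod N)) (γ : Gamma0 N) (i : ι) :
    dUnit N (h.coc γ i) = dUnit N γ * u (h.perm γ i) * (u i)⁻¹ := by
  rw [eq_mul_inv_iff_mul_eq]
  apply Units.ext
  rw [Units.val_mul, Units.val_mul, coe_dUnit, coe_dUnit, hu, hu]
  have e := congrFun (congrFun (h.spec γ i) 0) 0
  rw [Matrix.mul_apply, Matrix.mul_apply, Fin.sum_univ_two, Fin.sum_univ_two, hut, mul_zero,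
    add_zero] at e
  have e' := congrArg (Int.cast : ℤ → ZMod N) e
  push_cast at e'
  have hc : ((mat γ 1 0 : ℤ) : ZMod N) = 0 := Gamma0_mem.mp γ.2
  rw [hc, mul_zero, add_zero] at e'
  have h1 := cast_a_mul_cast_d γ
  have h2 := cast_a_mul_cast_d (h.coc γ i)
  linear_combination (((mat γ 1 1 : ℤ) : ZMod N) * ((mat (h.coc γ i) 1 1 : ℤ) : ZMod N)) * e'
    - ((mat (h.coc γ i) 1 1 : ℤ) : ZMod N) * ((α i 0 0 : ℤ) : ZMod N) * h1
    + ((mat γ 1 1 : ℤ) : ZMod N) * ((α (h.perm γ i) 0 0 : ℤ) : ZMod N) * h2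

/-- The homomorphism `γ ↦ lam (d_γ)` attached to a character `lam` of `(ℤ/N)ˣ`. -/
noncomputable def dChar (N : ℕ) {A : Type*} [AddCommGroup A]
    (lam : (ZMod N)ˣ →* Multiplicative A) : Additive (Gamma0 N) →+ A :=
  MonoidHom.toAdditiveLeft (lam.comp (dUnit N))

theorem dChar_apply {N : ℕ} {A : Type*} [AddCommGroup A] (lam : (ZMod N)ˣ →* Multiplicative A)
    (γ : Gamma0 N) :
    dChar N lam (Additive.ofMul γ) = Multiplicative.toAdd (lam (dUnit N γ)) := rfl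

theorem heckeOp_dChar {N : ℕ} {ι : Type*} [Fintype ι] {α : ι → Matrix (Fin 2) (Fin 2) ℤ}
    (h : IsHeckeSys (Gamma0 N) α) (hut : ∀ i, α i 1 0 = 0) (u : ι → (ZMod N)ˣ)
    (hu : ∀ i, ((u i : (ZMod N)ˣ) : ZMod N) = ((α i 0 0 : ℤ) : ZMod N))
    {A : Type*} [AddCommGroup A] (lam : (ZMod N)ˣ →* Multiplicative A) :
    h.heckeOp (dChar N lam) = Fintype.card ι • dChar N lam := by
  refine h.heckeOp_eq_card_nsmul (dChar N lam) (fun i => Multiplicative.toAdd (lam (u i))) ?_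
  intro γ i
  rw [dChar_apply, dChar_apply, dUnit_coc h hut u hu, map_mul lam, map_mul lam, map_inv lam,
    toAdd_mul, toAdd_mul, toAdd_inv, sub_eq_add_neg]

/-- **Eigen-computation**: `T_ℓ χ = (ℓ + 1) χ` for `ℓ ∤ N` and `U_ℓ χ = ℓ χ` for `ℓ ∣ N`, for every
character `χ` of `Γ₀(N)` factoring through the lower-right entry mod `N`. -/
theorem heckeHom_dChar (N : ℕ) (ℓ : Nat.Primes) {A : Type*} [AddCommGroup A]
    (lam : (ZMod N)ˣ →* Multiplicative A) :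
    heckeHom N ℓ A (dChar N lam) =
      (if (ℓ : ℕ) ∣ N then (ℓ : ℕ) else (ℓ : ℕ) + 1) • dChar N lam := by
  by_cases h : (ℓ : ℕ) ∣ N
  · rw [heckeHom_of_dvd h, if_pos h,
      heckeOp_dChar (isHeckeSys_U ℓ.2 h) (fun i => by simp [alphaU, alphaFin]) (fun _ => 1)
        (fun i => by simp [alphaU, alphaFin]) lam, Fintype.card_fin]
  · have hcop : Nat.Coprime (ℓ : ℕ) N := (Nat.Prime.coprime_iff_not_dvd ℓ.2).mpr h
    rw [heckeHom_of_not_dvd h, if_neg h,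
      heckeOp_dChar (isHeckeSys_T ℓ.2 h)
        (fun i => by cases i <;> simp [alphaT, alphaInf, alphaFin])
        (fun i => i.elim (ZMod.unitOfCoprime (ℓ : ℕ) hcop) (fun _ => 1))
        (fun i => by cases i <;> simp [alphaT, alphaInf, alphaFin]) lam,
      Fintype.card_option, Fintype.card_fin]

end Fermat.Agent.S16.H75
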