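import Mathlib
import Fermat.Prelude.Def_ModularCurve_ModularUnit
import Fermat.Agent.S16.H75.Gamma0Hecke

/-!
# S16 (LOWER): the lower bound from a parabolic integral lift of a `d`-character

If `ψ : Γ₀(N) → ℤ` is a parabolic homomorphism whose reduction mod `n` is the character
`γ ↦ lam (d_γ)` and some value of `ψ` is prime to `n`, then `n ∣ P(a)` for every Hecke polynomial
`P` vanishing on `S₂(Γ₀(N))`, where `a ℓ ≡ ℓ + 1` (`ℓ ∤ N`), `a ℓ ≡ ℓ` (`ℓ ∣ N`) mod `n`.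
For `N = p` prime and `n = eisensteinNumerator p` this is the statement LOWER of S16, given the lift.
-/

set_option autoImplicit false

open CongruenceSubgroup ModularCurve ModularCurve.Period CuspForm
open scoped MatrixGroups

namespace Fermat.Agent.S16.H75

/-- A homomorphism to `ℤ` all of whose values are divisible by `n` is `n` times a homomorphism. -/
theorem exists_eq_zsmul_of_forall_dvd {G : Type*} [AddZeroClass G] (n : ℤ) (θ₀ : G →+ ℤ)
    (h : ∀ g, n ∣ θ₀ g) : ∃ θ : G →+ ℤ, θ₀ = n • θ := by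
  by_cases hn : n = 0
  · subst hn
    refine ⟨0, AddMonoidHom.ext fun g => ?_⟩
    simpa using h g
  · refine ⟨{ toFun := fun g => θ₀ g / n
              map_zero' := by simp
              map_add' := fun g g' => by
                show θ₀ (g + g') / n = θ₀ g / n + θ₀ g' / n
                rw [map_add]
                exact Int.add_ediv_of_dvd_left (h g) }, AddMonoidHom.ext fun g => ?_⟩
    show θ₀ g = n • (θ₀ g / n)
    rw [smul_eq_mul, Int.mul_ediv_cancel' (h g)]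

/-- Every unit mod `N` is the lower-right entry of an element of `Γ₀(N)`. -/
theorem exists_dUnit_eq (N : ℕ) [NeZero N] (x : (ZMod N)ˣ) : ∃ γ : Gamma0 N, dUnit N γ = x := by
  have hcop : IsCoprime (((x : ZMod N).val : ℕ) : ℤ) (N : ℤ) :=
    Nat.isCoprime_iff_coprime.mpr (ZMod.val_coe_unit_coprime x)
  obtain ⟨a, b, hab⟩ := hcop
  obtain ⟨g, hg⟩ : ∃ g : SL(2, ℤ), (g : Matrix (Fin 2) (Fin 2) ℤ) =
      !![a, -b; (N : ℤ), (((x : ZMod N).val : ℕ) : ℤ)] :=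
    ⟨⟨!![a, -b; (N : ℤ), (((x : ZMod N).val : ℕ) : ℤ)], by
      rw [Matrix.det_fin_two_of]; linear_combination hab⟩, rfl⟩
  have hmem : g ∈ Gamma0 N := by
    rw [mem_Gamma0_iff_dvd, hg]
    simp
  refine ⟨⟨g, hmem⟩, Units.ext ?_⟩
  rw [coe_dUnit]
  show (((g : Matrix (Fin 2) (Fin 2) ℤ) 1 1 : ℤ) : ZMod N) = (x : ZMod N)
  rw [hg]
  simp

/-- **LOWER from a lift**, general level. -/
theorem dvd_aeval_of_dChar_lift (N : ℕ) [NeZero N] (n : ℕ) (a : Nat.Primes → ℤ)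
    (ha : ∀ ℓ : Nat.Primes, ((a ℓ : ℤ) : ZMod n) =
      (((if (ℓ : ℕ) ∣ N then (ℓ : ℕ) else (ℓ : ℕ) + 1 : ℕ) : ℕ) : ZMod n))
    (hES : parabolicHoms ℂ (Gamma0 N) ℂ ≤ LinearMap.range (periodHomPair N))
    (lam : (ZMod N)ˣ →* Multiplicative (ZMod n)) (ψ : Additive (Gamma0 N) →+ ℤ)
    (hpar : ψ ∈ parabolicHoms ℤ (Gamma0 N) ℤ)
    (hψ : ∀ γ : Gamma0 N, ((ψ (Additive.ofMul γ) : ℤ) : ZMod n) =
      Multiplicative.toAdd (lam (dUnit N γ)))
    (γ₀ : Gamma0 N) (hγ₀ : IsCoprime (ψ (Additive.ofMul γ₀)) (n : ℤ))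
    (P : HeckeAlg) (hP : heckeEvalForms N 2 P = 0) :
    (n : ℤ) ∣ MvPolynomial.aeval a P := by
  refine dvd_aeval_of_eigen_mod N n a (fun ℓ => heckeHom N ℓ ℤ) (fun ℓ => heckeHom N ℓ ℂ) hES
    (fun ℓ φ => heckeHom_comp N ℓ (Int.castAddHom ℂ) φ) (periodHomPair_formOp N) ψ hpar ?_ γ₀ hγ₀
    P hP
  intro ℓ
  have hred : (Int.castAddHom (ZMod n)).comp ψ = dChar N lam :=
    AddMonoidHom.ext fun γ => hψ (Additive.toMul γ)
  have h1 : (Int.castAddHom (ZMod n)).comp (heckeHom N ℓ ℤ ψ) =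
      (if (ℓ : ℕ) ∣ N then (ℓ : ℕ) else (ℓ : ℕ) + 1) • (Int.castAddHom (ZMod n)).comp ψ := by
    rw [← heckeHom_comp, hred, heckeHom_dChar]
  have h2 : ∀ γ, (n : ℤ) ∣ (heckeHom N ℓ ℤ ψ - a ℓ • ψ) γ := by
    intro γ
    rw [← ZMod.intCast_zmod_eq_zero_iff_dvd]
    have h3 := DFunLike.congr_fun h1 γ
    simp only [AddMonoidHom.coe_comp, Function.comp_apply, Int.coe_castAddHom,
      AddMonoidHom.coe_smul, Pi.smul_apply, nsmul_eq_mul] at h3
    simp only [AddMonoidHom.sub_apply, AddMonoidHom.coe_smul, Pi.smul_apply, smul_eq_mul,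
      Int.cast_sub, Int.cast_mul]
    rw [h3, ha ℓ, sub_self]
  obtain ⟨θ, hθ⟩ := exists_eq_zsmul_of_forall_dvd (n : ℤ) _ h2
  exact ⟨θ, by rw [← hθ]; abel⟩

/-- **LOWER of S16 from the parabolic lift**: `N = p` prime, `n = eisensteinNumerator p`. -/
theorem lower_of_lift (p : ℕ) [Fact p.Prime]
    (hES : parabolicHoms ℂ (Gamma0 p) ℂ ≤ LinearMap.range (periodHomPair p))
    (hlift : ∃ (lam : (ZMod p)ˣ →* Multiplicative (ZMod (eisensteinNumerator p)))
      (ψ : Additive (Gamma0 p) →+ ℤ), Function.Surjective lam ∧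
        ψ ∈ parabolicHoms ℤ (Gamma0 p) ℤ ∧
        ∀ γ : Gamma0 p, ((ψ (Additive.ofMul γ) : ℤ) : ZMod (eisensteinNumerator p)) =
          Multiplicative.toAdd (lam ((Gamma0Map p).toHomUnits γ)))
    (P : HeckeAlg) (hP : heckeEvalForms p 2 P = 0) :
    (eisensteinNumerator p : ℤ) ∣ MvPolynomial.aeval (eisensteinSystem p) P := by
  have hp : p.Prime := Fact.out
  have : NeZero p := ⟨hp.ne_zero⟩
  obtain ⟨lam, ψ, hsurj, hpar, hψ⟩ := hlift
  obtain ⟨x, hx⟩ := hsurj (Multiplicative.ofAdd 1)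
  obtain ⟨γ₀, hγ₀⟩ := exists_dUnit_eq p x
  have hval : ((ψ (Additive.ofMul γ₀) : ℤ) : ZMod (eisensteinNumerator p)) = 1 := by
    rw [hψ γ₀]
    show Multiplicative.toAdd (lam (dUnit p γ₀)) = 1
    rw [hγ₀, hx]
    rfl
  have hcop : IsCoprime (ψ (Additive.ofMul γ₀)) (eisensteinNumerator p : ℤ) := by
    have h1 : ((ψ (Additive.ofMul γ₀) - 1 : ℤ) : ZMod (eisensteinNumerator p)) = 0 := by
      rw [Int.cast_sub, hval, Int.cast_one, sub_self]
    obtain ⟨k, hk⟩ := (ZMod.intCast_zmod_eq_zero_iff_dvd _ _).mp h1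
    exact ⟨1, -k, by linear_combination hk⟩
  have hpn : ((p : ℕ) : ZMod (eisensteinNumerator p)) = 1 := by
    have h1 : ((p - 1 : ℕ) : ZMod (eisensteinNumerator p)) = 0 :=
      (ZMod.natCast_eq_zero_iff _ _).mpr (eisensteinNumerator_dvd p)
    have h2 : (((p - 1) + 1 : ℕ) : ZMod (eisensteinNumerator p)) =
        ((p : ℕ) : ZMod (eisensteinNumerator p)) := by
      rw [Nat.sub_add_cancel hp.one_le]
    rw [← h2, Nat.cast_add, h1, zero_add, Nat.cast_one]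
  refine dvd_aeval_of_dChar_lift p (eisensteinNumerator p) (eisensteinSystem p) ?_ hES lam ψ hpar
    hψ γ₀ hcop P hP
  intro ℓ
  by_cases h : (ℓ : ℕ) ∣ p
  · have hℓp : (ℓ : ℕ) = p := (Nat.prime_dvd_prime_iff_eq ℓ.2 hp).mp h
    rw [eisensteinSystem_of_dvd h, if_pos h, hℓp, hpn, Int.cast_one]
  · rw [eisensteinSystem_of_not_dvd h, if_neg h]
    push_cast
    ring

end Fermat.Agent.S16.H75
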